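import Mathlib
import Fermat.Agent.LT.H556.A0
import Fermat.Agent.LT.T1.Spec
import Fermat.Agent.LT.T2.Spec
import Fermat.Agent.LT.T3.Spec
import Fermat.Agent.LT.T2.H941.SmoSpec

/-!
# Row LT, tower T2, leaf T2.10.08 `ArchTorusC` (complex place): SUB-SPEC (helper973)

OFF-MAIN.  Owner and sub-architect of registry row 1101 (`H941.Leaf08 K : T1.T1Out K → ArchTorusC K`,
`LT/T2/H941/SmoSpec.lean` of helper941, sha256 41255efa7193).  Definitions and sub-leaf Props only
in this file (no placeholder proof, nothing assumed); the PROVED tops are in `ArchTop.lean`.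

## The cut

ADELIC PART (`K`, the place `w`, the Whittaker coefficient `W = wh ψ ν D Φ`):
* A1 `WhEquivC`  : `W(n(a) g) = ψ(a) W(g)`                      (independence of the fundamental domain)
* A2 `WhContC`   : `W` is continuous and bounded                (dominated convergence, `ν D < ∞`)
* A3 `WhMeanC`   : the mean value property passes from `Φ` to `W` (Fubini)
* A4 `LocEmbC`   : the embedding `j : GL₂(ℂ) → GL₂(𝔸_K)` at a complex place `w`
With these, `h ↦ W(j(h) g)` (`g` trivial at `w`) is a LOCAL WHITTAKER FUNCTION of parameter `0`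
(`IsLocWhit`) for the character `χ = ψ ∘ ι` of `ℂ`.

LOCAL PART (functions on `GL₂(ℂ)`, Mathlib only): `LocUniqC` = a local Whittaker function of
parameter `0` is determined on the torus by its value at `1`, through a universal `κ` without zeros.
* L1 `CharClassC`  : a continuous character of `ℂ` is `x ↦ exp(i Re(c̄ x))`
* R1 `SphereCoordC`: Iwasawa coordinates of the geodesic sphere:
                     `f(t(eˢ) k(α,β) a_d) = χ(eˢ e^{iα} sin β sinh d / D) f(t(eˢ / D))`,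
                     `D = cosh d - cos β sinh d`
* R2 `BetaFormC`   : the mean value property in the coordinate `β` (`IsBetaSol`), kernel
                     `J(z) = (2π)⁻¹ ∫₀^{2π} exp(i z cos α) dα` (`besJ`)
* R3 `SubstC`      : substitution `D = e^{-t}`: `IsBetaSol k F → IsRadSol k (e^{-s} F)`;
                     `IsRadSol k H`: `∫_{-d}^{d} J(k eˢ √(2 eᵗ (cosh d - cosh t))) H(s+t) dt = 2 d H(s)`
* L4a `GenLaplC`   : `IsRadSol k H` ⟹ the generalised second derivative of `H`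
                     (`lim_{d→0} 6 d⁻² (mean of H over [s-d,s+d] - H(s))`) is `k² e^{2s} H(s)`
* L4b `GenSecondC` : a continuous function with continuous generalised second derivative `φ` is
                     `C²` with `H'' = φ` (Blaschke--Privalov in dimension one, maximum principle)
* L5 `OdeUniqC`    : a solution of `h'' = k² e^{2s} h` which tends to `0` at `+∞` and has a zero is `0`
                     (`(h')' = k² e^{2s} h`: `h > 0, h' ≥ 0` at one point forces `h` increasing)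
No Bessel function is constructed: `κ` is the quotient `F₀(|y|) / F₀(1)` of ANY non-zero bounded
real solution `F₀(r) = r h₀(log r)` (and `κ = 1` if there is none, in which case every `W` vanishes
on the torus); the boundedness of `Φ` gives `h(s) = e^{-s} F(eˢ) → 0`.
-/

set_option autoImplicit false

open IsDedekindDomain NumberField MeasureTheory AutomorphicForm
open Fermat.Agent.LT.H556.A0
open scoped ComplexConjugate

noncomputable section

namespace Fermat.Agent.LT.T2.H973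

open Fermat.Agent.LT.T2.H941

/-! ## 1. Local vocabulary: `GL₂(ℂ)` -/

/-- The unipotent element `n(x) = [[1, x], [0, 1]]` of `GL₂(ℂ)`. -/
def nC (x : ℂ) : GL (Fin 2) ℂ :=
  ⟨!![1, x; 0, 1], !![1, -x; 0, 1],
    by ext i j; fin_cases i <;> fin_cases j <;> simp [Matrix.mul_apply, Fin.sum_univ_two],
    by ext i j; fin_cases i <;> fin_cases j <;> simp [Matrix.mul_apply, Fin.sum_univ_two]⟩

/-- The torus element `t(y) = diag(y, 1)` of `GL₂(ℂ)`. -/
def tC (y : ℂˣ) : GL (Fin 2) ℂ :=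
  ⟨!![(y : ℂ), 0; 0, 1], !![((y⁻¹ : ℂˣ) : ℂ), 0; 0, 1],
    by ext i j; fin_cases i <;> fin_cases j <;> simp [Matrix.mul_apply, Fin.sum_univ_two],
    by ext i j; fin_cases i <;> fin_cases j <;> simp [Matrix.mul_apply, Fin.sum_univ_two]⟩

/-- The unit `eˢ` of `ℂ`. -/
def expU (s : ℝ) : ℂˣ := Units.mk0 ((Real.exp s : ℝ) : ℂ) (by
  rw [Ne, Complex.ofReal_eq_zero]; exact (Real.exp_pos s).ne')

/-- The torus element `t(eˢ) = diag(eˢ, 1)`. -/
def tE (s : ℝ) : GL (Fin 2) ℂ := tC (expU s)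

/-- The character `x ↦ exp(i Re(c̄ x))` of `ℂ`, as a function. -/
def chiOf (c : ℂ) (x : ℂ) : ℂ := Complex.exp (Complex.I * (((conj c * x).re : ℝ) : ℂ))

/-- The kernel `J(z) = (2π)⁻¹ ∫₀^{2π} exp(i z cos α) dα` (the Bessel function `J₀`). -/
def besJ (z : ℝ) : ℂ :=
  ((2 * Real.pi : ℝ) : ℂ)⁻¹ *
    ∫ α in (0 : ℝ)..(2 * Real.pi), Complex.exp (Complex.I * ((z * Real.cos α : ℝ) : ℂ))

/-- The denominator `D(β, d) = cosh d - cos β sinh d` (`> 0`). -/
def sphD (β d : ℝ) : ℝ := Real.cosh d - Real.cos β * Real.sinh d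

/-- A LOCAL WHITTAKER FUNCTION of parameter `0` on `GL₂(ℂ)` for the character `χ`: continuous,
bounded, `(N, χ)`-equivariant on the left, invariant under `U(2)` and the positive scalars on the
right, with the mean value property of `A0.MeanValueComplex`. -/
structure IsLocWhit (χ : AddChar ℂ Circle) (f : GL (Fin 2) ℂ → ℂ) : Prop where
  cont : Continuous f
  bdd : ∃ C : ℝ, ∀ h : GL (Fin 2) ℂ, ‖f h‖ ≤ C
  equiv : ∀ (x : ℂ) (h : GL (Fin 2) ℂ), f (nC x * h) = ((χ x : Circle) : ℂ) * f h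
  unitary : ∀ u h : GL (Fin 2) ℂ,
    (u : Matrix (Fin 2) (Fin 2) ℂ) * (u : Matrix (Fin 2) (Fin 2) ℂ).conjTranspose = 1 →
      f (h * u) = f h
  scalar : ∀ (z h : GL (Fin 2) ℂ) (r : ℝ), 0 < r →
    (z : Matrix (Fin 2) (Fin 2) ℂ) = Matrix.diagonal (fun _ => (r : ℂ)) → f (h * z) = f h
  mean : ∀ d : ℝ, 0 < d → ∀ Y : ℝ → ℝ → GL (Fin 2) ℂ,
    (∀ α β : ℝ, (Y α β : Matrix (Fin 2) (Fin 2) ℂ) = rotZ α * rotY β * torus d) →
    ∀ h : GL (Fin 2) ℂ,
      (∫ α in (0 : ℝ)..(2 * Real.pi), ∫ β in (0 : ℝ)..Real.pi,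
          f (h * Y α β) * ((Real.sin β : ℝ) : ℂ))
        = ((4 * Real.pi * (d / Real.sinh d) : ℝ) : ℂ) * f h

/-- **LOCAL UNIQUENESS.**  For a continuous character `χ` of `ℂ` there is `κ : ℂ → ℂ`, `κ 1 = 1`,
without zeros on `ℂˣ`, with `f(t(y)) = κ(y) f(1)` for every local Whittaker function `f` of
parameter `0`. -/
def LocUniqC : Prop :=
  ∀ χ : AddChar ℂ Circle, Continuous χ →
    ∃ κ : ℂ → ℂ, κ 1 = 1 ∧ (∀ t : ℂ, t ≠ 0 → κ t ≠ 0) ∧
      ∀ f : GL (Fin 2) ℂ → ℂ, IsLocWhit χ f → ∀ y : ℂˣ, f (tC y) = κ (y : ℂ) * f 1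

/-! ## 2. The local sub-leaves (Mathlib only) -/

/-- **L1.**  A continuous character of `ℂ` is `x ↦ exp(i Re(c̄ x))`.
(`c₀ = ∫₀^δ χ ≠ 0` for small `δ`, `χ(x) c₀ = ∫_x^{x+δ} χ` is differentiable, `χ' = χ'(0) χ`; apply
to the restrictions to `ℝ` and `iℝ`.) -/
def CharClassC : Prop :=
  ∀ χ : AddChar ℂ Circle, Continuous χ → ∃ c : ℂ, ∀ x : ℂ, ((χ x : Circle) : ℂ) = chiOf c x

/-- **R1.**  Iwasawa coordinates of the geodesic sphere of radius `d` around `t(eˢ)`:
`t(eˢ) k(α,β) a_d = n(x) t(eˢ / D) z u` with `x = eˢ e^{iα} sin β sinh d / D`,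
`D = cosh d - cos β sinh d`, `z = √D` scalar, `u` unitary
(`M M* = [[cosh d + cos β sinh d, e^{iα} sin β sinh d], [*, D]]` for `M = k(α,β) a_d`).  Only the
three invariance properties of `f` are used. -/
def SphereCoordC : Prop :=
  ∀ (χ : AddChar ℂ Circle) (f : GL (Fin 2) ℂ → ℂ),
    (∀ (x : ℂ) (h : GL (Fin 2) ℂ), f (nC x * h) = ((χ x : Circle) : ℂ) * f h) →
    (∀ u h : GL (Fin 2) ℂ,
      (u : Matrix (Fin 2) (Fin 2) ℂ) * (u : Matrix (Fin 2) (Fin 2) ℂ).conjTranspose = 1 →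
        f (h * u) = f h) →
    (∀ (z h : GL (Fin 2) ℂ) (r : ℝ), 0 < r →
      (z : Matrix (Fin 2) (Fin 2) ℂ) = Matrix.diagonal (fun _ => (r : ℂ)) → f (h * z) = f h) →
    ∀ (s α β d : ℝ) (Y : GL (Fin 2) ℂ),
      (Y : Matrix (Fin 2) (Fin 2) ℂ) = rotZ α * rotY β * torus d →
      f (tE s * Y)
        = ((χ (((Real.exp s * Real.sin β * Real.sinh d / sphD β d : ℝ) : ℂ)
              * Complex.exp (Complex.I * (α : ℂ))) : Circle) : ℂ)
          * f (tE (s - Real.log (sphD β d)))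

/-- The mean value property in the coordinate `β`, for `F(s) = f(t(eˢ))`. -/
def IsBetaSol (k : ℝ) (F : ℝ → ℂ) : Prop :=
  Continuous F ∧ ∀ s d : ℝ, 0 < d →
    (∫ β in (0 : ℝ)..Real.pi,
        besJ (k * Real.exp s * Real.sin β * Real.sinh d / sphD β d)
          * F (s - Real.log (sphD β d)) * ((Real.sin β : ℝ) : ℂ))
      = ((2 * (d / Real.sinh d) : ℝ) : ℂ) * F s

/-- **R2.**  The mean value property of a local Whittaker function for the character
`exp(i Re(c̄ x))`, restricted to the torus, in the coordinate `β`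
(R1, Fubini on the rectangle, `∫₀^{2π} χ(ρ e^{iα}) dα = 2π J(|c| ρ)`). -/
def BetaFormC : Prop :=
  SphereCoordC →
    ∀ (c : ℂ) (χ : AddChar ℂ Circle) (f : GL (Fin 2) ℂ → ℂ),
      (∀ x : ℂ, ((χ x : Circle) : ℂ) = chiOf c x) → IsLocWhit χ f →
        IsBetaSol ‖c‖ (fun s => f (tE s))

/-- The radial integral equation, for `H(s) = e^{-s} f(t(eˢ))`. -/
def IsRadSol (k : ℝ) (H : ℝ → ℂ) : Prop :=
  Continuous H ∧ ∀ s d : ℝ, 0 < d →
    (∫ t in (-d)..d,
        besJ (k * Real.exp s * Real.sqrt (2 * Real.exp t * (Real.cosh d - Real.cosh t)))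
          * H (s + t))
      = ((2 * d : ℝ) : ℂ) * H s

/-- **R3.**  Substitution `D = e^{-t}` (`cos β = (cosh d - e^{-t}) / sinh d`,
`sin β dβ = e^{-t} dt / sinh d`, `sin² β sinh² d / D² = 2 eᵗ (cosh d - cosh t)`). -/
def SubstC : Prop :=
  ∀ (k : ℝ) (F : ℝ → ℂ), 0 ≤ k → IsBetaSol k F →
    IsRadSol k (fun s => ((Real.exp (-s) : ℝ) : ℂ) * F s)

/-- The generalised second derivative of `H` at `s` is `a`:
`(mean of H over [s - d, s + d]) - H(s) = (a / 6) d² + o(d²)` as `d → 0+`. -/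
def HasGenSecond (H : ℝ → ℂ) (s : ℝ) (a : ℂ) : Prop :=
  Filter.Tendsto
    (fun d : ℝ => (((2 * d : ℝ) : ℂ)⁻¹ * (∫ t in (-d)..d, H (s + t)) - H s) / ((d ^ 2 : ℝ) : ℂ))
    (nhdsWithin 0 (Set.Ioi 0)) (nhds (a / 6))

/-- **L4a.**  The radial integral equation gives the generalised second derivative
(`J(z) = 1 - z²/4 + O(z⁴)`, `∫_{-d}^{d} (cosh d - cosh t) dt = (2/3) d³ + O(d⁵)`, `H` continuous). -/
def GenLaplC : Prop :=
  ∀ (k : ℝ) (H : ℝ → ℂ), IsRadSol k H →
    ∀ s : ℝ, HasGenSecond H s (((k ^ 2 * Real.exp (2 * s) : ℝ) : ℂ) * H s)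

/-- **L4b** (Blaschke--Privalov in dimension one).  A continuous function with continuous
generalised second derivative `φ` is twice differentiable with `H'' = φ`.
(Subtract a `C²` function `P` with `P'' = φ`; a continuous real function whose generalised second
derivative vanishes identically is affine: `q ± ε s²` has no interior maximum against chords.) -/
def GenSecondC : Prop :=
  ∀ H φ : ℝ → ℂ, Continuous H → Continuous φ → (∀ s : ℝ, HasGenSecond H s (φ s)) →
    ∃ H' : ℝ → ℂ, (∀ s : ℝ, HasDerivAt H (H' s) s) ∧ ∀ s : ℝ, HasDerivAt H' (φ s) s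

/-- A real solution of `h'' = k² e^{2s} h` which tends to `0` at `+∞`. -/
def IsDecSol (k : ℝ) (h : ℝ → ℝ) : Prop :=
  (∃ h' : ℝ → ℝ, (∀ s : ℝ, HasDerivAt h (h' s) s) ∧
      ∀ s : ℝ, HasDerivAt h' (k ^ 2 * Real.exp (2 * s) * h s) s) ∧
    Filter.Tendsto h Filter.atTop (nhds 0)

/-- **L5.**  A decaying solution with a zero vanishes identically.
(At a zero `s₀` of `h ≠ 0`: `h'(s₀) ≠ 0` by uniqueness of the initial value problem; just after
`s₀`, `h h' > 0`; but `h > 0`, `h' > 0` at one point forces `h' ` increasing, `h ≥ h(s₁) > 0` for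
ever, since `(h')' = k² e^{2s} h ≥ 0` as long as `h ≥ 0`.) -/
def OdeUniqC : Prop :=
  ∀ (k : ℝ) (h : ℝ → ℝ), IsDecSol k h → (∃ s : ℝ, h s = 0) → ∀ s : ℝ, h s = 0

/-! ## 3. The adelic sub-leaves -/

section Adelic

variable (K : Type) [Field K] [NumberField K]

/-- **A1.**  `W(n(a) g) = ψ(a) W(g)`.
(`x ↦ Φ(n(x) g) conj ψ(x)` is `K`-periodic; `D + a` is a fundamental domain;
`IsAddFundamentalDomain.setIntegral_eq`.) -/
def WhEquivC : Prop :=
  letI : MeasurableSpace (Adl K) := borel (Adl K)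
  T1.LocCompC K →
  ∀ (ψ : AddChar (Adl K) Circle) (ν : Measure (Adl K)) (D : Set (Adl K)), IsWhitData ψ ν D →
    ∀ Φ : G K → ℂ, Continuous Φ → (∃ C : ℝ, ∀ g : G K, ‖Φ g‖ ≤ C) →
      (∀ (γ : GL (Fin 2) K) (g : G K), Φ (T1.ratG K γ * g) = Φ g) →
      ∀ (a : Adl K) (g : G K),
        wh ψ ν D Φ (T3.unip K a * g) = ((ψ a : Circle) : ℂ) * wh ψ ν D Φ g

/-- **A2.**  `W` is continuous and bounded (dominated convergence, `ν D < ∞`). -/
def WhContC : Prop :=
  letI : MeasurableSpace (Adl K) := borel (Adl K)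
  T1.LocCompC K →
  ∀ (ψ : AddChar (Adl K) Circle) (ν : Measure (Adl K)) (D : Set (Adl K)), IsWhitData ψ ν D →
    ∀ Φ : G K → ℂ, Continuous Φ → (∃ C : ℝ, ∀ g : G K, ‖Φ g‖ ≤ C) →
      Continuous (wh ψ ν D Φ) ∧ ∃ C : ℝ, ∀ g : G K, ‖wh ψ ν D Φ g‖ ≤ C

/-- **A3.**  The mean value property passes from `Φ` to `W` (Fubini on
`D × [0, 2π] × [0, π]`; the family `Y` is continuous by `locCont472` of helper472). -/
def WhMeanC : Prop :=
  letI : MeasurableSpace (Adl K) := borel (Adl K)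
  T1.LocCompC K →
  ∀ (ψ : AddChar (Adl K) Circle) (ν : Measure (Adl K)) (D : Set (Adl K)), IsWhitData ψ ν D →
    ∀ Φ : G K → ℂ, Continuous Φ → (∃ C : ℝ, ∀ g : G K, ‖Φ g‖ ≤ C) →
      ∀ w : InfinitePlace K, MeanValueComplex Φ w → MeanValueComplex (wh ψ ν D Φ) w

variable {K}

/-- The embedding of `GL₂(ℂ)` and of `ℂ` at the complex place `w`. -/
structure IsLocEmb (w : InfinitePlace K) (j : GL (Fin 2) ℂ →* G K) (ι : ℂ →+ Adl K) : Prop where
  cont : Continuous j
  contAdd : Continuous ι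
  loc : ∀ h : GL (Fin 2) ℂ, IsLocalAtInf w (j h)
  comp : ∀ h : GL (Fin 2) ℂ, infComp w (j h) = (h : Matrix (Fin 2) (Fin 2) ℂ)
  unip : ∀ x : ℂ, j (nC x) = T3.unip K (ι x)
  tor : ∀ y : (Adl K)ˣ, IsIdeleAtInf w y → ∀ yc : ℂˣ,
    (yc : ℂ) = InfinitePlace.Completion.extensionEmbedding w ((y : Adl K).1 w) →
      tor y = j (tC yc)
  comm : ∀ (h : GL (Fin 2) ℂ) (g : G K), TrivAtInf w g → j h * g = g * j h

variable (K)

/-- **A4.**  The local embedding exists at every complex place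
(`InfinitePlace.Completion.ringEquivComplexOfIsComplex`; elements with prescribed components:
`glMk793` of helper793; continuity: `locCont472` of helper472). -/
def LocEmbC : Prop :=
  ∀ w : InfinitePlace K, w.IsComplex →
    ∃ (j : GL (Fin 2) ℂ →* G K) (ι : ℂ →+ Adl K), IsLocEmb w j ι

end Adelic

end Fermat.Agent.LT.T2.H973

end
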