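import Mathlib
import Fermat.Agent.LT.T2.H973.ArchSpec

/-!
# Row LT, tower T2, leaf T2.10.08 `ArchTorusC` (complex place): the PROVED TOPS (helper973)

OFF-MAIN.  Registry row 1101.  Sub-spec: `ArchSpec.lean` (sha256 6e234a4a0ea7).
Against `LT/T2/H941/SmoSpec.lean` v2 (sha256 14c4d13ef051); the strong form of v1 (`κ 1 = 1`, `κ`
without zeros) is proved as well (`ArchTorusStrongC`).

* `locUniq_of_leaves : CharClassC → SphereCoordC → BetaFormC → SubstC → GenLaplC → GenSecondC →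
    OdeUniqC → LocUniqC`
* `archTorusStrong_of_leaves K : WhEquivC K → WhContC K → WhMeanC K → LocEmbC K → LocUniqC →
    T1.T1Out K → ArchTorusStrongC K`
* `archTorus_of_leaves K : (the same) → ArchTorusC K`
* `leaf08_of_leaves K : (the eleven sub-leaves) → H941.Leaf08 K`

Standard axioms only; no placeholder.
-/

set_option autoImplicit false

open IsDedekindDomain NumberField MeasureTheory AutomorphicForm
open Fermat.Agent.LT.H556.A0
open scoped ComplexConjugate

noncomputable section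

namespace Fermat.Agent.LT.T2.H973

open Fermat.Agent.LT.T2.H941

/-! ## 1. The local top -/

/-- `H(s) = e^{-s} f(t(eˢ))`. -/
def radOf (f : GL (Fin 2) ℂ → ℂ) (s : ℝ) : ℂ := ((Real.exp (-s) : ℝ) : ℂ) * f (tE s)

lemma tC_val (y : ℂˣ) : ((tC y : GL (Fin 2) ℂ) : Matrix (Fin 2) (Fin 2) ℂ) = !![(y : ℂ), 0; 0, 1] :=
  rfl

lemma tC_mul (y y' : ℂˣ) : tC (y * y') = tC y * tC y' := by
  apply Units.ext
  rw [Units.val_mul, tC_val, tC_val, tC_val, Matrix.mul_fin_two]
  simp

lemma tC_one : tC 1 = 1 := by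
  apply Units.ext
  rw [tC_val, Units.val_one, Units.val_one, Matrix.one_fin_two]

lemma expU_zero : expU 0 = 1 := by
  apply Units.ext
  show ((Real.exp 0 : ℝ) : ℂ) = 1
  rw [Real.exp_zero, Complex.ofReal_one]

lemma tE_zero : tE 0 = 1 := by
  unfold tE
  rw [expU_zero, tC_one]

lemma radOf_zero (f : GL (Fin 2) ℂ → ℂ) : radOf f 0 = f 1 := by
  unfold radOf
  rw [tE_zero, neg_zero, Real.exp_zero, Complex.ofReal_one, one_mul]

/-- On the torus a function which is right invariant under `U(2)` depends on `|y|` only. -/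
lemma torus_abs {f : GL (Fin 2) ℂ → ℂ}
    (hu : ∀ u h : GL (Fin 2) ℂ,
      (u : Matrix (Fin 2) (Fin 2) ℂ) * (u : Matrix (Fin 2) (Fin 2) ℂ).conjTranspose = 1 →
        f (h * u) = f h) (y : ℂˣ) :
    f (tC y) = f (tE (Real.log ‖(y : ℂ)‖)) := by
  have hy : (y : ℂ) ≠ 0 := y.ne_zero
  have hn : 0 < ‖(y : ℂ)‖ := norm_pos_iff.mpr hy
  have hE : (expU (Real.log ‖(y : ℂ)‖) : ℂ) = ((‖(y : ℂ)‖ : ℝ) : ℂ) := by
    show ((Real.exp (Real.log ‖(y : ℂ)‖) : ℝ) : ℂ) = _
    rw [Real.exp_log hn]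
  -- the phase
  have hph : (y : ℂ) / ((‖(y : ℂ)‖ : ℝ) : ℂ) ≠ 0 :=
    div_ne_zero hy (by rw [Ne, Complex.ofReal_eq_zero]; exact hn.ne')
  set p : ℂˣ := Units.mk0 _ hph with hp
  have hyp : y = expU (Real.log ‖(y : ℂ)‖) * p := by
    apply Units.ext
    rw [Units.val_mul, hE, hp, Units.val_mk0]
    field_simp
  have hpn : ‖(p : ℂ)‖ = 1 := by
    rw [hp, Units.val_mk0, norm_div, Complex.norm_real, Real.norm_eq_abs, abs_of_pos hn,
      div_self hn.ne']
  have hunit : ((tC p : GL (Fin 2) ℂ) : Matrix (Fin 2) (Fin 2) ℂ)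
      * ((tC p : GL (Fin 2) ℂ) : Matrix (Fin 2) (Fin 2) ℂ).conjTranspose = 1 := by
    rw [tC_val]
    ext i j
    fin_cases i <;> fin_cases j <;>
      simp [Matrix.mul_apply, Fin.sum_univ_two, Matrix.conjTranspose_apply]
    rw [Complex.mul_conj, Complex.normSq_eq_norm_sq, hpn]
    simp
  conv_lhs => rw [hyp, tC_mul]
  exact hu (tC p) _ hunit

lemma isDecSol_sub_smul {k : ℝ} {h₁ h₂ : ℝ → ℝ} (H₁ : IsDecSol k h₁) (H₂ : IsDecSol k h₂)
    (a : ℝ) : IsDecSol k (fun s => h₁ s - a * h₂ s) := by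
  obtain ⟨⟨d₁, hd₁, hd₁'⟩, ht₁⟩ := H₁
  obtain ⟨⟨d₂, hd₂, hd₂'⟩, ht₂⟩ := H₂
  refine ⟨⟨fun s => d₁ s - a * d₂ s, fun s => ?_, fun s => ?_⟩, ?_⟩
  · exact (hd₁ s).sub ((hd₂ s).const_mul a)
  · have h3 := (hd₁' s).sub ((hd₂' s).const_mul a)
    have e : k ^ 2 * Real.exp (2 * s) * (h₁ s - a * h₂ s)
        = k ^ 2 * Real.exp (2 * s) * h₁ s - a * (k ^ 2 * Real.exp (2 * s) * h₂ s) := by ring
    rw [e]
    exact h3
  · have := ht₁.sub (ht₂.const_mul a)
    simpa using this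

/-- **The local top.** -/
theorem locUniq_of_leaves (h1 : CharClassC) (hR1 : SphereCoordC) (hR2 : BetaFormC)
    (hR3 : SubstC) (h4a : GenLaplC) (h4b : GenSecondC) (h5 : OdeUniqC) : LocUniqC := by
  intro χ hχ
  obtain ⟨c, hc⟩ := h1 χ hχ
  -- every local Whittaker function gives a complex decaying solution
  have key : ∀ f : GL (Fin 2) ℂ → ℂ, IsLocWhit χ f →
      IsDecSol ‖c‖ (fun s => (radOf f s).re) ∧ IsDecSol ‖c‖ (fun s => (radOf f s).im) := by
    intro f hf
    have hβ : IsBetaSol ‖c‖ (fun s => f (tE s)) := hR2 hR1 c χ f hc hf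
    have hrad : IsRadSol ‖c‖ (radOf f) := hR3 ‖c‖ _ (norm_nonneg c) hβ
    have hgen := h4a ‖c‖ (radOf f) hrad
    have hcontφ : Continuous (fun s : ℝ =>
        (((‖c‖ ^ 2 * Real.exp (2 * s) : ℝ) : ℂ)) * radOf f s) := by
      refine Continuous.mul ?_ hrad.1
      exact Complex.continuous_ofReal.comp
        (continuous_const.mul (Real.continuous_exp.comp (continuous_const.mul continuous_id)))
    obtain ⟨H', hH, hH'⟩ := h4b (radOf f) _ hrad.1 hcontφ hgen
    -- decay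
    obtain ⟨C, hC⟩ := hf.bdd
    have hdec : Filter.Tendsto (radOf f) Filter.atTop (nhds 0) := by
      rw [tendsto_zero_iff_norm_tendsto_zero]
      have hb : ∀ s : ℝ, ‖radOf f s‖ ≤ Real.exp (-s) * C := by
        intro s
        unfold radOf
        rw [norm_mul, Complex.norm_real, Real.norm_eq_abs, abs_of_pos (Real.exp_pos _)]
        exact mul_le_mul_of_nonneg_left (hC _) (Real.exp_pos _).le
      have hlim : Filter.Tendsto (fun s : ℝ => Real.exp (-s) * C) Filter.atTop (nhds 0) := by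
        have := (Real.tendsto_exp_neg_atTop_nhds_zero).mul_const C
        simpa using this
      exact squeeze_zero (fun s => norm_nonneg _) hb hlim
    constructor
    · refine ⟨⟨fun s => (H' s).re, fun s => ?_, fun s => ?_⟩, ?_⟩
      · exact (Complex.reCLM.hasFDerivAt.comp_hasDerivAt s (hH s))
      · have h3 := (Complex.reCLM.hasFDerivAt.comp_hasDerivAt s (hH' s))
        have e : Complex.reCLM ((((‖c‖ ^ 2 * Real.exp (2 * s) : ℝ) : ℂ)) * radOf f s)
            = ‖c‖ ^ 2 * Real.exp (2 * s) * (radOf f s).re := by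
          rw [Complex.reCLM_apply, Complex.re_ofReal_mul]
        rw [e] at h3
        exact h3
      · have h3 : Filter.Tendsto (Complex.re ∘ radOf f) Filter.atTop (nhds (Complex.re 0)) :=
          (Complex.continuous_re.tendsto 0).comp hdec
        rw [Complex.zero_re] at h3
        exact h3
    · refine ⟨⟨fun s => (H' s).im, fun s => ?_, fun s => ?_⟩, ?_⟩
      · exact (Complex.imCLM.hasFDerivAt.comp_hasDerivAt s (hH s))
      · have h3 := (Complex.imCLM.hasFDerivAt.comp_hasDerivAt s (hH' s))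
        have e : Complex.imCLM ((((‖c‖ ^ 2 * Real.exp (2 * s) : ℝ) : ℂ)) * radOf f s)
            = ‖c‖ ^ 2 * Real.exp (2 * s) * (radOf f s).im := by
          rw [Complex.imCLM_apply, Complex.im_ofReal_mul]
        rw [e] at h3
        exact h3
      · have h3 : Filter.Tendsto (Complex.im ∘ radOf f) Filter.atTop (nhds (Complex.im 0)) :=
          (Complex.continuous_im.tendsto 0).comp hdec
        rw [Complex.zero_im] at h3
        exact h3
  -- the value on the torus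
  have htor : ∀ f : GL (Fin 2) ℂ → ℂ, IsLocWhit χ f → ∀ y : ℂˣ,
      f (tC y) = ((‖(y : ℂ)‖ : ℝ) : ℂ) * radOf f (Real.log ‖(y : ℂ)‖) := by
    intro f hf y
    have hn : 0 < ‖(y : ℂ)‖ := norm_pos_iff.mpr y.ne_zero
    rw [torus_abs hf.unitary y]
    unfold radOf
    rw [← mul_assoc, ← Complex.ofReal_mul, Real.exp_neg, Real.exp_log hn,
      mul_inv_cancel₀ hn.ne', Complex.ofReal_one, one_mul]
  by_cases hex : ∃ h₀ : ℝ → ℝ, IsDecSol ‖c‖ h₀ ∧ ∃ s, h₀ s ≠ 0
  · obtain ⟨h₀, hh₀, s₁, hs₁⟩ := hex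
    have hnz : ∀ s, h₀ s ≠ 0 := by
      intro s hs
      exact hs₁ (h5 ‖c‖ h₀ hh₀ ⟨s, hs⟩ s₁)
    refine ⟨fun t => ((‖t‖ * h₀ (Real.log ‖t‖) / h₀ 0 : ℝ) : ℂ), ?_, ?_, ?_⟩
    · show ((‖(1 : ℂ)‖ * h₀ (Real.log ‖(1 : ℂ)‖) / h₀ 0 : ℝ) : ℂ) = 1
      rw [norm_one, Real.log_one, one_mul, div_self (hnz 0), Complex.ofReal_one]
    · intro t ht
      show ((‖t‖ * h₀ (Real.log ‖t‖) / h₀ 0 : ℝ) : ℂ) ≠ 0
      rw [Ne, Complex.ofReal_eq_zero]
      exact div_ne_zero (mul_ne_zero (norm_ne_zero_iff.mpr ht) (hnz _)) (hnz 0)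
    · intro f hf y
      obtain ⟨hre, him⟩ := key f hf
      -- proportionality
      have hprop : ∀ s : ℝ, radOf f s = ((h₀ s / h₀ 0 : ℝ) : ℂ) * radOf f 0 := by
        intro s
        have e1 := h5 ‖c‖ _ (isDecSol_sub_smul hre hh₀ ((radOf f 0).re / h₀ 0))
          ⟨0, by
            show (radOf f 0).re - (radOf f 0).re / h₀ 0 * h₀ 0 = 0
            rw [div_mul_cancel₀ _ (hnz 0), sub_self]⟩ s
        have e2 := h5 ‖c‖ _ (isDecSol_sub_smul him hh₀ ((radOf f 0).im / h₀ 0))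
          ⟨0, by
            show (radOf f 0).im - (radOf f 0).im / h₀ 0 * h₀ 0 = 0
            rw [div_mul_cancel₀ _ (hnz 0), sub_self]⟩ s
        have e1' : (radOf f s).re = (radOf f 0).re / h₀ 0 * h₀ s := sub_eq_zero.mp e1
        have e2' : (radOf f s).im = (radOf f 0).im / h₀ 0 * h₀ s := sub_eq_zero.mp e2
        apply Complex.ext
        · rw [Complex.re_ofReal_mul, e1']
          field_simp
        · rw [Complex.im_ofReal_mul, e2']
          field_simp
      rw [htor f hf y, hprop, radOf_zero]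
      show _ = ((‖(y : ℂ)‖ * h₀ (Real.log ‖(y : ℂ)‖) / h₀ 0 : ℝ) : ℂ) * f 1
      rw [← mul_assoc, ← Complex.ofReal_mul, mul_div_assoc]
  · refine ⟨fun _ => 1, rfl, fun _ _ => one_ne_zero, ?_⟩
    intro f hf y
    obtain ⟨hre, him⟩ := key f hf
    have hz : ∀ s : ℝ, radOf f s = 0 := by
      intro s
      apply Complex.ext
      · by_contra hne
        exact hex ⟨_, hre, s, hne⟩
      · by_contra hne
        exact hex ⟨_, him, s, hne⟩
    rw [htor f hf y, hz, mul_zero, ← radOf_zero f, hz, mul_zero]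

/-! ## 2. The adelic top -/

section Adelic

variable (K : Type) [Field K] [NumberField K]

/-- `W_Φ` inherits the right invariance of `Φ`. -/
lemma wh_right_inv {m : MeasurableSpace (Adl K)} (ψ : AddChar (Adl K) Circle)
    (ν : Measure (Adl K)) (D : Set (Adl K)) (Φ : G K → ℂ) (k : G K)
    (hk : ∀ g : G K, Φ (g * k) = Φ g) (g : G K) :
    wh ψ ν D Φ (g * k) = wh ψ ν D Φ g := by
  unfold wh
  simp only [← mul_assoc, hk]

/-- The STRONG form of `H941.ArchTorusC` (= the Prop of SmoSpec v1, sha256 41255efa7193): `κ` is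
normalised and has no zero on `K_wˣ`.  (SmoSpec v2, sha256 14c4d13ef051, dropped both clauses.) -/
def ArchTorusStrongC : Prop :=
  letI : MeasurableSpace (Adl K) := borel (Adl K)
  ∀ (ψ : AddChar (Adl K) Circle) (ν : Measure (Adl K)) (D : Set (Adl K)), IsWhitData ψ ν D →
  ∀ w : InfinitePlace K, w.IsComplex →
    ∃ κ : w.Completion → ℂ, κ 1 = 1 ∧ (∀ t : w.Completion, t ≠ 0 → κ t ≠ 0) ∧
      ∀ Φ : G K → ℂ, Continuous Φ → (∃ C : ℝ, ∀ g : G K, ‖Φ g‖ ≤ C) →
        (∀ (γ : GL (Fin 2) K) (g : G K), Φ (T1.ratG K γ * g) = Φ g) →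
        (∀ z : G K, IsArchPosScalar w z → ∀ g : G K, Φ (g * z) = Φ g) →
        (∀ k : G K, IsArchCompact w k → ∀ g : G K, Φ (g * k) = Φ g) →
        MeanValueComplex Φ w →
        ∀ y : (Adl K)ˣ, IsIdeleAtInf w y → ∀ g : G K, TrivAtInf w g →
          wh ψ ν D Φ (tor y * g) = κ ((y : Adl K).1 w) * wh ψ ν D Φ g

/-- **The adelic top, strong form**: from the four adelic sub-leaves and the local uniqueness. -/
theorem archTorusStrong_of_leaves (hA1 : WhEquivC K) (hA2 : WhContC K) (hA3 : WhMeanC K)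
    (hA4 : LocEmbC K) (hL : LocUniqC) (hT1 : T1.T1Out K) : ArchTorusStrongC K := by
  let _ : MeasurableSpace (Adl K) := borel (Adl K)
  intro ψ ν D hW w hw
  obtain ⟨j, ι, hj⟩ := hA4 w hw
  have hψc : Continuous ψ := hW.1.cont
  -- the local character
  set χ : AddChar ℂ Circle := ψ.compAddMonoidHom ι with hχdef
  have hχv : ∀ x : ℂ, χ x = ψ (ι x) := fun x => rfl
  have hχ : Continuous χ := by
    have : (χ : ℂ → Circle) = fun x => ψ (ι x) := funext hχv
    rw [this]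
    exact hψc.comp hj.contAdd
  obtain ⟨κ, hκ1, hκ0, hκ⟩ := hL χ hχ
  refine ⟨fun t => κ (InfinitePlace.Completion.extensionEmbedding w t), ?_, ?_, ?_⟩
  · show κ (InfinitePlace.Completion.extensionEmbedding w 1) = 1
    rw [map_one, hκ1]
  · intro t ht
    show κ (InfinitePlace.Completion.extensionEmbedding w t) ≠ 0
    apply hκ0
    rw [Ne, map_eq_zero]
    exact ht
  · intro Φ hΦc hΦb hΦK hΦz hΦk hΦm y hy g hg
    have hnr : ¬ w.IsReal := InfinitePlace.not_isReal_iff_isComplex.mpr hw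
    obtain ⟨hWc, hWb⟩ := hA2 hT1.locComp ψ ν D hW Φ hΦc hΦb
    have hWe := hA1 hT1.locComp ψ ν D hW Φ hΦc hΦb hΦK
    have hWm := hA3 hT1.locComp ψ ν D hW Φ hΦc hΦb w hΦm
    -- the local function
    have hLW : IsLocWhit χ (fun h : GL (Fin 2) ℂ => wh ψ ν D Φ (j h * g)) := by
      refine ⟨?_, ?_, ?_, ?_, ?_, ?_⟩
      · exact hWc.comp (hj.cont.mul continuous_const)
      · obtain ⟨C, hC⟩ := hWb
        exact ⟨C, fun h => hC _⟩
      · intro x h
        show wh ψ ν D Φ (j (nC x * h) * g) = ((χ x : Circle) : ℂ) * wh ψ ν D Φ (j h * g)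
        rw [map_mul, hj.unip, mul_assoc, hWe, hχv]
      · intro u h hu
        show wh ψ ν D Φ (j (h * u) * g) = wh ψ ν D Φ (j h * g)
        have hk : IsArchCompact w (j u) :=
          ⟨hj.loc u, by rw [hj.comp]; exact hu, fun hr => absurd hr hnr⟩
        rw [map_mul, mul_assoc, hj.comm u g hg, ← mul_assoc]
        exact wh_right_inv K ψ ν D Φ (j u) (hΦk (j u) hk) _
      · intro z h r hr hz
        show wh ψ ν D Φ (j (h * z) * g) = wh ψ ν D Φ (j h * g)
        have hk : IsArchPosScalar w (j z) :=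
          ⟨hj.loc z, r, hr, by rw [hj.comp]; exact hz⟩
        rw [map_mul, mul_assoc, hj.comm z g hg, ← mul_assoc]
        exact wh_right_inv K ψ ν D Φ (j z) (hΦz (j z) hk) _
      · intro d hd Y hY h
        have h3 := hWm d hd (fun α β => j (Y α β))
          (fun α β => ⟨hj.loc _, by rw [hj.comp]; exact hY α β⟩) (j h * g)
        have e : ∀ α β : ℝ, wh ψ ν D Φ (j (h * Y α β) * g)
            = wh ψ ν D Φ (j h * g * j (Y α β)) := by
          intro α β
          rw [map_mul, mul_assoc, hj.comm (Y α β) g hg, ← mul_assoc]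
        simp only [e]
        exact h3
    -- the conclusion
    have yne : InfinitePlace.Completion.extensionEmbedding w ((y : Adl K).1 w) ≠ 0 := by
      rw [Ne, map_eq_zero]
      intro h0
      have h1 : ((y : Adl K) * ((y⁻¹ : (Adl K)ˣ) : Adl K)).1 w = 1 := by
        rw [Units.mul_inv]; rfl
      have h2 : ((y : Adl K) * ((y⁻¹ : (Adl K)ˣ) : Adl K)).1 w
          = (y : Adl K).1 w * (((y⁻¹ : (Adl K)ˣ) : Adl K)).1 w := rfl
      rw [h2, h0, zero_mul] at h1
      exact zero_ne_one h1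
    have h4 := hκ _ hLW (Units.mk0 _ yne)
    have h5 : tor y = j (tC (Units.mk0 _ yne)) := hj.tor y hy (Units.mk0 _ yne) rfl
    show wh ψ ν D Φ (tor y * g)
      = κ (InfinitePlace.Completion.extensionEmbedding w ((y : Adl K).1 w)) * wh ψ ν D Φ g
    rw [h5]
    have h6 : wh ψ ν D Φ (j 1 * g) = wh ψ ν D Φ g := by rw [map_one, one_mul]
    rw [← h6]
    exact h4

/-- **The adelic top** (`H941.ArchTorusC` of SmoSpec v2). -/
theorem archTorus_of_leaves (hA1 : WhEquivC K) (hA2 : WhContC K) (hA3 : WhMeanC K)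
    (hA4 : LocEmbC K) (hL : LocUniqC) (hT1 : T1.T1Out K) : ArchTorusC K := by
  let _ : MeasurableSpace (Adl K) := borel (Adl K)
  intro ψ ν D hW w hw
  obtain ⟨κ, -, -, hκ⟩ := archTorusStrong_of_leaves K hA1 hA2 hA3 hA4 hL hT1 ψ ν D hW w hw
  exact ⟨κ, hκ⟩

/-- **Registry row 1101** (`H941.Leaf08`) from the eleven sub-leaves. -/
theorem leaf08_of_leaves (hA1 : WhEquivC K) (hA2 : WhContC K) (hA3 : WhMeanC K)
    (hA4 : LocEmbC K) (h1 : CharClassC) (hR1 : SphereCoordC) (hR2 : BetaFormC)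
    (hR3 : SubstC) (h4a : GenLaplC) (h4b : GenSecondC) (h5 : OdeUniqC) : H941.Leaf08 K :=
  fun hT1 => archTorus_of_leaves K hA1 hA2 hA3 hA4
    (locUniq_of_leaves h1 hR1 hR2 hR3 h4a h4b h5) hT1

end Adelic

end Fermat.Agent.LT.T2.H973

end
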