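import Mathlib
import Fermat.Agent.LT.T2.H973.ArchTop
import Fermat.Agent.LT.T2.H8.WhEquiv
import Fermat.Agent.LT.T2.H264.WhCont
import Fermat.Agent.LT.T2.H600.WhMean
import Fermat.Agent.LT.T2.H973.H546.LocEmb
import Fermat.Agent.LT.T2.H98.CharClass
import Fermat.Agent.LT.T2.H309.SphereCoord
import Fermat.Agent.LT.T2.H944.BetaForm
import Fermat.Agent.LT.T2.H59.Subst
import Fermat.Agent.LT.T2.H655.GenLapl
import Fermat.Agent.LT.T2.H708.GenSecond
import Fermat.Agent.LT.T2.H864.OdeUniq

/-!
# Row LT, tower T2, leaf T2.10.08 `ArchTorusC` (complex place): CLOSED (helper973)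

OFF-MAIN.  Registry row 1101 of the station T2.10 `SMO_AA` (helper941, `LT/T2/H941/SmoSpec.lean`
v2, sha256 14c4d13ef051).  UNCONDITIONAL:

* `leaf08_973 K : H941.Leaf08 K`               (`T1.T1Out K → ArchTorusC K`)
* `archTorusC973 K : T1.T1Out K → H941.ArchTorusC K`
* `archTorusStrongC973 K : T1.T1Out K → ArchTorusStrongC K`   (the form of SmoSpec v1: `κ 1 = 1`,
  `κ` without zeros)
* `locUniqC973 : LocUniqC`                      (Mathlib only statement: local uniqueness on `GL₂(ℂ)`)

The eleven sub-leaves of `ArchSpec.lean` (sha256 6e234a4a0ea7), byte-identical copies: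

| sub-leaf | Prop | owner | file |
|---|---|---|---|
| A1 | `WhEquivC K`   | helper8   | `LT/T2/H8/WhEquiv.lean` |
| A2 | `WhContC K`    | helper264 | `LT/T2/H264/WhCont.lean` |
| A3 | `WhMeanC K`    | helper600 | `LT/T2/H600/WhMean.lean` (+ `LT/T2/H472/LocCont.lean`, helper472) |
| A4 | `LocEmbC K`    | helper546 | `LT/T2/H973/H546/LocEmb.lean` (+ `LT/T1/H793/AdeleProj.lean`, helper793) |
| L1 | `CharClassC`   | helper98  | `LT/T2/H98/{CharAbs,CharClass}.lean` |
| R1 | `SphereCoordC` | helper309 | `LT/T2/H309/SphereCoord.lean` |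
| R2 | `BetaFormC`    | helper944 | `LT/T2/H944/BetaForm.lean` |
| R3 | `SubstC`       | helper59  | `LT/T2/H59/Subst.lean` |
| L4a | `GenLaplC`    | helper655 | `LT/T2/H655/GenLapl.lean` |
| L4b | `GenSecondC`  | helper708 | `LT/T2/H708/{GenSecondCore,GenSecond}.lean` |
| L5 | `OdeUniqC`     | helper864 | `LT/T2/H864/{OdeCore,OdeUniq}.lean` |

Tops: `ArchTop.lean` (helper973).  Standard axioms only.
-/

set_option autoImplicit false

open IsDedekindDomain NumberField MeasureTheory AutomorphicForm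
open Fermat.Agent.LT.H556.A0

noncomputable section

namespace Fermat.Agent.LT.T2.H973

/-- **LOCAL UNIQUENESS on `GL₂(ℂ)`** (parameter `0`), unconditional. -/
theorem locUniqC973 : LocUniqC :=
  locUniq_of_leaves H98.charClassC98 H309.sphereCoordC309 betaFormC944 H59.substC59
    H655.genLaplC655 H708.genSecondC708 H864.odeUniqC864

/-- The strong form (SmoSpec v1) of `ArchTorusC`. -/
theorem archTorusStrongC973 (K : Type) [Field K] [NumberField K] (hT1 : T1.T1Out K) :
    ArchTorusStrongC K :=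
  archTorusStrong_of_leaves K (H8.whEquivC_h8 K) (H264.whContC264 K) (H600.whMeanC600 K)
    (H546.locEmbC_h546 K) locUniqC973 hT1

/-- `H941.ArchTorusC K` (SmoSpec v2). -/
theorem archTorusC973 (K : Type) [Field K] [NumberField K] (hT1 : T1.T1Out K) :
    H941.ArchTorusC K :=
  archTorus_of_leaves K (H8.whEquivC_h8 K) (H264.whContC264 K) (H600.whMeanC600 K)
    (H546.locEmbC_h546 K) locUniqC973 hT1

/-- **Registry row 1101: `H941.Leaf08 K`, CLOSED.** -/
theorem leaf08_973 (K : Type) [Field K] [NumberField K] : H941.Leaf08 K :=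
  archTorusC973 K

end Fermat.Agent.LT.T2.H973

end
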